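import Fermat.Agent.DelaValleePoussin.Landau
import Mathlib.Analysis.Calculus.IteratedDeriv.Lemmas
import Mathlib.Analysis.Calculus.Deriv.ZPow
import Mathlib.Analysis.SpecialFunctions.Pow.Real
import Mathlib.Analysis.Complex.ExponentialBounds

/-!
# The even power sums over the zeros of an entire function of order one

If `‖f z‖ ≤ exp (B (|z| + 1) log (|z| + 3)) ‖f 0‖` then `f` has `O (B r log r)` zeros within `r`.
Dividing them out on a large disc expresses the odd derivatives of `f'/f` at the origin by the power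
sums `∑ ρ ^ (- 2 j)` up to any `ε`, and `∑ |ρ| ^ (- 2) ≤ 128 B` when no zero has `|ρ| ≤ 1`.
-/

set_option autoImplicit false

noncomputable section

open Complex Metric Filter
open scoped Topology Nat

namespace FA.DeuringHeilbronn

/-- `f` is of order one about the origin with constant `B`. -/
def Grows (f : ℂ → ℂ) (B : ℝ) : Prop :=
  ∀ z, ‖f z‖ ≤ Real.exp (B * ((‖z‖ + 1) * Real.log (‖z‖ + 3))) * ‖f 0‖

/-- The exponent on the circle of radius `3 r`. -/
def rimB (B r : ℝ) : ℝ := B * ((3 * r + 1) * Real.log (3 * r + 3))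

theorem Grows.on_rim {f : ℂ → ℂ} {B r : ℝ} (hf : Grows f B) :
    ∀ z ∈ sphere (0 : ℂ) (3 * r), ‖f z‖ ≤ Real.exp (rimB B r) * ‖f 0‖ := fun z hz => by
  have h := hf z
  rwa [mem_sphere_zero_iff_norm.1 hz] at h

theorem differentiable_linProd (S : Multiset ℂ) :
    Differentiable ℂ fun z => (S.map fun ρ => z - ρ).prod := by
  induction S using Multiset.induction_on with
  | empty => simp
  | cons ρ S ih =>
    simp only [Multiset.map_cons, Multiset.prod_cons]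
    fun_prop

theorem norm_linProd_ge {S : Multiset ℂ} {r : ℝ} (hr : 0 ≤ r) (hS : ∀ ρ ∈ S, ‖ρ‖ ≤ r) {z : ℂ}
    (hz : ‖z‖ = 3 * r) : (2 * r) ^ Multiset.card S ≤ ‖(S.map fun ρ => z - ρ).prod‖ := by
  induction S using Multiset.induction_on with
  | empty => simp
  | cons ρ S ih =>
    rw [Multiset.map_cons, Multiset.prod_cons, Multiset.card_cons, pow_succ', norm_mul]
    have h1 := norm_sub_norm_le z ρ
    have h2 := hS ρ (Multiset.mem_cons_self ρ S)
    exact mul_le_mul (by linarith) (ih fun x hx => hS x (Multiset.mem_cons_of_mem hx))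
      (pow_nonneg (by linarith) _) (norm_nonneg _)

theorem norm_linProd_zero_le {S : Multiset ℂ} {r : ℝ} (hr : 0 ≤ r) (hS : ∀ ρ ∈ S, ‖ρ‖ ≤ r) :
    ‖(S.map fun ρ => (0 : ℂ) - ρ).prod‖ ≤ r ^ Multiset.card S := by
  induction S using Multiset.induction_on with
  | empty => simp
  | cons ρ S ih =>
    rw [Multiset.map_cons, Multiset.prod_cons, Multiset.card_cons, pow_succ', norm_mul]
    exact mul_le_mul (by simpa using hS ρ (Multiset.mem_cons_self ρ S))
      (ih fun x hx => hS x (Multiset.mem_cons_of_mem hx)) (norm_nonneg _) hr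

/-- `g` is what remains of `f` when the zeros `S` are divided out. -/
structure Divides (f g : ℂ → ℂ) (S : Multiset ℂ) : Prop where
  diff : Differentiable ℂ g
  ne_zero : g 0 ≠ 0
  eq : ∀ z, f z = (S.map fun ρ => z - ρ).prod * g z

theorem Divides.mem_zero {f g : ℂ → ℂ} {S : Multiset ℂ} (h : Divides f g S) {ρ : ℂ} (hρ : ρ ∈ S) :
    f ρ = 0 := by
  rw [h.eq, Multiset.prod_eq_zero (Multiset.mem_map.2 ⟨ρ, hρ, sub_self ρ⟩), zero_mul]

theorem Divides.of_add {f g : ℂ → ℂ} {T U : Multiset ℂ} (h : Divides f g (T + U)) (h0 : f 0 ≠ 0) :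
    Divides f (fun z => (U.map fun ρ => z - ρ).prod * g z) T := by
  refine ⟨(differentiable_linProd U).mul h.diff, fun hc => h0 ?_, fun z => ?_⟩
  · have := h.eq 0
    rw [Multiset.map_add, Multiset.prod_add, mul_assoc, hc, mul_zero] at this
    exact this
  · rw [h.eq z, Multiset.map_add, Multiset.prod_add, mul_assoc]

/-- Each zero within `r` halves the bound on the circle of radius `3 r`. -/
theorem Divides.two_pow_mul_le {f g : ℂ → ℂ} {S : Multiset ℂ} (h : Divides f g S) {r M : ℝ}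
    (hr : 0 < r) (hS : ∀ ρ ∈ S, ‖ρ‖ ≤ r)
    (hb : ∀ z ∈ sphere (0 : ℂ) (3 * r), ‖f z‖ ≤ Real.exp M * ‖f 0‖) {z : ℂ}
    (hz : z ∈ closedBall (0 : ℂ) (3 * r)) :
    2 ^ Multiset.card S * ‖g z‖ ≤ Real.exp M * ‖g 0‖ := by
  have key : ∀ w ∈ sphere (0 : ℂ) (3 * r),
      ‖g w‖ ≤ Real.exp M * ‖g 0‖ / 2 ^ Multiset.card S := fun w hw => by
    have h1 := hb w hw
    rw [h.eq w, h.eq 0, norm_mul, norm_mul] at h1
    have h2 := mul_le_mul_of_nonneg_right (norm_linProd_ge hr.le hS (mem_sphere_zero_iff_norm.1 hw))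
      (norm_nonneg (g w))
    have h3 := mul_le_mul_of_nonneg_left (mul_le_mul_of_nonneg_right
      (norm_linProd_zero_le hr.le hS) (norm_nonneg (g 0))) (Real.exp_pos M).le
    have h4 := h2.trans (h1.trans h3)
    rw [mul_pow] at h4
    rw [le_div_iff₀ (by positivity)]
    refine le_of_mul_le_mul_left ?_ (pow_pos hr (Multiset.card S))
    linarith
  have h5 := FA.DLVP.norm_le_of_sphere (U := Set.univ) (Set.subset_univ _) (by linarith)
    h.diff.differentiableOn key hz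
  rwa [le_div_iff₀ (by positivity), mul_comm ‖g z‖] at h5

theorem Divides.card_le {f g : ℂ → ℂ} {S : Multiset ℂ} (h : Divides f g S) {r M : ℝ}
    (hr : 0 < r) (hS : ∀ ρ ∈ S, ‖ρ‖ ≤ r)
    (hb : ∀ z ∈ sphere (0 : ℂ) (3 * r), ‖f z‖ ≤ Real.exp M * ‖f 0‖) :
    (Multiset.card S : ℝ) ≤ 2 * M := by
  have h1 := le_of_mul_le_mul_right (h.two_pow_mul_le hr hS hb (mem_closedBall_self (by linarith)))
    (norm_pos_iff.2 h.ne_zero)
  have h2 := Real.log_le_log (by positivity) h1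
  rw [Real.log_pow, Real.log_exp] at h2
  have h3 : (Multiset.card S : ℝ) * (1 / 2) ≤ (Multiset.card S : ℝ) * Real.log 2 :=
    mul_le_mul_of_nonneg_left (by linarith [Real.log_two_gt_d9]) (Nat.cast_nonneg _)
  linarith

/-- All zeros within `R` can be divided out. -/
theorem exists_divides {f : ℂ → ℂ} (hf : Differentiable ℂ f) (h0 : f 0 ≠ 0) {R M : ℝ} (hR : 0 < R)
    (hb : ∀ z ∈ sphere (0 : ℂ) (3 * R), ‖f z‖ ≤ Real.exp M * ‖f 0‖) :
    ∃ S g, Divides f g S ∧ (∀ ρ ∈ S, ‖ρ‖ ≤ R) ∧ ∀ z : ℂ, ‖z‖ ≤ R → g z ≠ 0 := by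
  have step : ∀ n : ℕ, (∃ S g, Divides f g S ∧ (∀ ρ ∈ S, ‖ρ‖ ≤ R) ∧ ∀ z : ℂ, ‖z‖ ≤ R → g z ≠ 0) ∨
      ∃ S g, Divides f g S ∧ (∀ ρ ∈ S, ‖ρ‖ ≤ R) ∧ Multiset.card S = n := fun n => by
    induction n with
    | zero => exact Or.inr ⟨0, f, ⟨hf, h0, fun z => by simp⟩, by simp, rfl⟩
    | succ n ih =>
      rcases ih with hdone | ⟨S, g, hd, hS, hc⟩
      · exact Or.inl hdone
      by_cases hno : ∀ z : ℂ, ‖z‖ ≤ R → g z ≠ 0
      · exact Or.inl ⟨S, g, hd, hS, hno⟩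
      push Not at hno
      obtain ⟨ρ, hρ, hgρ⟩ := hno
      have hfac : ∀ z, g z = (z - ρ) * dslope g ρ z := fun z => by
        rw [← smul_eq_mul, sub_smul_dslope, hgρ, sub_zero]
      refine Or.inr ⟨ρ ::ₘ S, dslope g ρ, ⟨differentiableOn_univ.1
        ((differentiableOn_dslope univ_mem).2 hd.diff.differentiableOn), fun hz => hd.ne_zero ?_,
        fun z => ?_⟩, ?_, by rw [Multiset.card_cons, hc]⟩
      · rw [hfac, hz, mul_zero]
      · rw [hd.eq z, hfac z, Multiset.map_cons, Multiset.prod_cons]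
        ring
      · intro x hx
        rcases Multiset.mem_cons.1 hx with rfl | hx'
        · exact hρ
        · exact hS x hx'
  rcases step (⌊2 * M⌋₊ + 1) with h | ⟨S, g, hd, hS, hc⟩
  · exact h
  · have := hd.card_le hR hS hb
    rw [hc] at this
    push_cast at this
    linarith [Nat.lt_floor_add_one (2 * M)]

/-- **The derivatives of `f'/f` at the origin, with the zeros split off.** -/
theorem Divides.iteratedDeriv_logDeriv (k : ℕ) {g : ℂ → ℂ} :
    ∀ {S : Multiset ℂ} {f : ℂ → ℂ}, Divides f g S → (∀ ρ ∈ S, ρ ≠ 0) →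
      iteratedDeriv k (logDeriv f) 0 = (-1) ^ k * k ! * (S.map fun ρ => ((-ρ) ^ (k + 1))⁻¹).sum +
        iteratedDeriv k (logDeriv g) 0 := by
  intro S
  induction S using Multiset.induction_on with
  | empty =>
    intro f h _
    have : f = g := funext fun z => by simpa using h.eq z
    simp [this]
  | cons ρ S ih =>
    intro f h hS
    obtain ⟨f₁, hf₁⟩ : ∃ f₁ : ℂ → ℂ, f₁ = fun z => (S.map fun x => z - x).prod * g z := ⟨_, rfl⟩
    have hd : Divides f₁ g S := ⟨h.diff, h.ne_zero, fun z => congrFun hf₁ z⟩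
    have hρ : ρ ≠ 0 := hS ρ (Multiset.mem_cons_self ρ S)
    have hS' : ∀ x ∈ S, x ≠ 0 := fun x hx => hS x (Multiset.mem_cons_of_mem hx)
    have hd1 : Differentiable ℂ f₁ := hf₁ ▸ (differentiable_linProd S).mul h.diff
    have h10 : f₁ 0 ≠ 0 := by
      rw [hd.eq 0]
      refine mul_ne_zero (Multiset.prod_ne_zero fun hc => ?_) h.ne_zero
      obtain ⟨x, hx, he⟩ := Multiset.mem_map.1 hc
      exact hS' x hx (by rwa [zero_sub, neg_eq_zero] at he)
    have hfac : f = fun z => (z - ρ) * f₁ z := funext fun z => by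
      rw [h.eq z, hd.eq z, Multiset.map_cons, Multiset.prod_cons, mul_assoc]
    have hev : logDeriv f =ᶠ[𝓝 0] fun z => (z - ρ)⁻¹ + logDeriv f₁ z := by
      filter_upwards [hd1.continuous.continuousAt.eventually_ne h10,
        (continuousAt_id.sub continuousAt_const).eventually_ne
          (show (0 : ℂ) - ρ ≠ 0 by rwa [zero_sub, neg_ne_zero])] with z hz1 hz2
      simp only [id_eq, Pi.sub_apply] at hz2
      rw [hfac, logDeriv_mul z hz2 hz1 (by fun_prop) (hd1 z)]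
      simp [logDeriv_apply]
    have hA : AnalyticAt ℂ (logDeriv f₁) 0 :=
      (hd1.analyticAt 0).deriv.div (hd1.analyticAt 0) h10
    have hB : AnalyticAt ℂ (fun z : ℂ => (z - ρ)⁻¹) 0 :=
      (analyticAt_id.sub analyticAt_const).inv (by simpa using hρ)
    have hlin : iteratedDeriv k (fun z : ℂ => (z - ρ)⁻¹) 0 =
        (-1) ^ k * k ! * ((-ρ) ^ (k + 1))⁻¹ := by
      rw [iteratedDeriv_comp_sub_const k (fun z : ℂ => z⁻¹) ρ, iteratedDeriv_eq_iterate]
      show deriv^[k] Inv.inv ((0 : ℂ) - ρ) = _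
      rw [iter_deriv_inv, zero_sub, show (-1 - k : ℤ) = -((k + 1 : ℕ) : ℤ) by push_cast; ring,
        zpow_neg, zpow_natCast]
    rw [hev.iteratedDeriv_eq k]
    have hsum := iteratedDeriv_add (n := k) hB.contDiffAt hA.contDiffAt
    rw [show (fun z => (z - ρ)⁻¹ + logDeriv f₁ z) = (fun z : ℂ => (z - ρ)⁻¹) + logDeriv f₁ from rfl,
      hsum, hlin, ih hd hS', Multiset.map_cons, Multiset.sum_cons]
    ring

/-- The zero-free factor contributes little. -/
theorem norm_iteratedDeriv_logDeriv_le {g : ℂ → ℂ} (hg : Differentiable ℂ g) {R M : ℝ} (hR : 0 < R)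
    (hM : 0 < M) (hne : ∀ z : ℂ, ‖z‖ ≤ R → g z ≠ 0)
    (hb : ∀ z : ℂ, ‖z‖ ≤ R → ‖g z‖ ≤ Real.exp M * ‖g 0‖) (k : ℕ) :
    ‖iteratedDeriv k (logDeriv g) 0‖ ≤ (k + 1)! * (2 * M) / (R / 2) ^ (k + 1) := by
  have hin : ∀ z ∈ ball (0 : ℂ) R, ‖z‖ ≤ R := fun z hz => (mem_ball_zero_iff.1 hz).le
  obtain ⟨h, hder, hh⟩ := FA.DLVP.norm_log_le hR hg.differentiableOn (fun z hz => hne z (hin z hz))
    (Real.one_lt_exp_iff.2 hM) (fun z hz => hb z (hin z hz))
  rw [Real.log_exp] at hh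
  have hev : deriv h =ᶠ[𝓝 0] logDeriv g := by
    filter_upwards [ball_mem_nhds (0 : ℂ) hR] with z hz
    rw [(hder z hz).deriv, logDeriv_apply]
  rw [← hev.iteratedDeriv_eq k, ← congrFun (iteratedDeriv_succ' (n := k) (f := h)) 0]
  have hsub : closedBall (0 : ℂ) (R / 2) ⊆ ball 0 R := closedBall_subset_ball (by linarith)
  refine norm_iteratedDeriv_le_of_forall_mem_sphere_norm_le (k + 1) (by linarith) ?_ fun z hz => ?_
  · refine DifferentiableOn.diffContOnCl ?_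
    rw [closure_ball _ (by linarith : R / 2 ≠ 0)]
    exact fun w hw => (hder w (hsub hw)).differentiableAt.differentiableWithinAt
  · refine (hh z (hsub (sphere_subset_closedBall hz))).trans (le_of_eq ?_)
    rw [mem_sphere_zero_iff_norm.1 hz]
    field_simp
    ring

theorem log_le_two_sqrt {x : ℝ} (hx : 0 < x) : Real.log x ≤ 2 * √x := by
  have h := Real.log_le_sub_one_of_pos (Real.sqrt_pos.2 hx)
  rw [Real.log_sqrt hx.le] at h
  linarith

/-- **The reciprocal squares of the zeros.** -/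
theorem Divides.sum_inv_sq_le {f g : ℂ → ℂ} {S : Multiset ℂ} (h : Divides f g S) (h0 : f 0 ≠ 0)
    {B : ℝ} (hB : 0 ≤ B) (hf : Grows f B) (hS : ∀ ρ ∈ S, 1 < ‖ρ‖) :
    (S.map fun ρ => (‖ρ‖ ^ 2)⁻¹).sum ≤ 128 * B := by
  obtain ⟨F, hFdef⟩ : ∃ F : ℕ → ℝ, F = fun m =>
    ((S.filter fun ρ => ‖ρ‖ ≤ 2 ^ m).map fun ρ => (‖ρ‖ ^ 2)⁻¹).sum := ⟨_, rfl⟩
  have hF : ∀ m : ℕ, F m ≤ 16 * B * (8 - (1 / 2) ^ m * (8 + 2 * m)) := fun m => by
    induction m with
    | zero =>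
      have e : S.filter (fun ρ => ‖ρ‖ ≤ (2 : ℝ) ^ (0 : ℕ)) = 0 :=
        Multiset.filter_eq_nil.2 fun ρ hρ => by rw [pow_zero, not_le]; exact hS ρ hρ
      simp only [hFdef, e]
      simp
    | succ m ih =>
      obtain ⟨T, hT⟩ : ∃ T : Multiset ℂ, T = S.filter fun ρ => ‖ρ‖ ≤ 2 ^ (m + 1) := ⟨_, rfl⟩
      obtain ⟨U, hU⟩ := Multiset.le_iff_exists_add.1 (Multiset.filter_le (fun ρ : ℂ =>
        ‖ρ‖ ≤ 2 ^ (m + 1)) S)
      rw [← hT] at hU
      have hTr : ∀ ρ ∈ T, ‖ρ‖ ≤ 2 ^ (m + 1) := fun ρ hρ => by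
        rw [hT] at hρ
        exact (Multiset.mem_filter.1 hρ).2
      have hcard := (Divides.of_add (hU ▸ h) h0).card_le (r := 2 ^ (m + 1)) (by positivity) hTr
        hf.on_rim
      -- the count within `2 ^ (m + 1)`
      have hrim : rimB B (2 ^ (m + 1)) ≤ 8 * B * 2 ^ m * (m + 3) := by
        have hp : (1 : ℝ) ≤ 2 ^ m := one_le_pow₀ one_le_two
        have hl : Real.log (3 * 2 ^ (m + 1) + 3) ≤ m + 3 := by
          refine (Real.log_le_log (by positivity) (show (3 : ℝ) * 2 ^ (m + 1) + 3 ≤ 2 ^ (m + 4) by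
            rw [pow_succ, pow_add]; linarith)).trans ?_
          rw [Real.log_pow]
          have hl2 := mul_le_mul_of_nonneg_left Real.log_two_lt_d9.le
            (show (0 : ℝ) ≤ m + 4 by positivity)
          push_cast
          linarith [(Nat.cast_nonneg m : (0 : ℝ) ≤ m)]
        rw [rimB]
        refine le_trans (mul_le_mul_of_nonneg_left (mul_le_mul (show 3 * (2 : ℝ) ^ (m + 1) + 1 ≤ 8 * 2 ^ m
          by rw [pow_succ]; linarith) hl (Real.log_nonneg (by linarith [pow_pos (two_pos (α := ℝ)) (m + 1)]))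
          (by positivity)) hB) (le_of_eq ?_)
        ring
      have hsplit := Multiset.filter_add_not (fun ρ : ℂ => ‖ρ‖ ≤ 2 ^ m) T
      have hlow : T.filter (fun ρ : ℂ => ‖ρ‖ ≤ 2 ^ m) = S.filter fun ρ => ‖ρ‖ ≤ 2 ^ m := by
        rw [hT, Multiset.filter_filter]
        refine Multiset.filter_congr fun ρ _ => and_iff_left_of_imp fun h' => h'.trans ?_
        exact pow_le_pow_right₀ one_le_two (by omega)
      have hshell : ((T.filter fun ρ : ℂ => ¬ ‖ρ‖ ≤ 2 ^ m).map fun ρ => (‖ρ‖ ^ 2)⁻¹).sum ≤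
          Multiset.card T * ((2 : ℝ) ^ m * 2 ^ m)⁻¹ := by
        refine (Multiset.sum_le_card_nsmul _ ((2 : ℝ) ^ m * 2 ^ m)⁻¹ fun x hx => ?_).trans ?_
        · obtain ⟨ρ, hρ, rfl⟩ := Multiset.mem_map.1 hx
          have h2 : 2 ^ m ≤ ‖ρ‖ := (not_le.1 (Multiset.mem_filter.1 hρ).2).le
          rw [sq]
          gcongr
        · rw [Multiset.card_map, nsmul_eq_mul]
          exact mul_le_mul_of_nonneg_right (Nat.cast_le.2 (Multiset.card_le_card
            (Multiset.filter_le _ _))) (by positivity)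
      have hFs : F (m + 1) = F m + ((T.filter fun ρ : ℂ => ¬ ‖ρ‖ ≤ 2 ^ m).map
          fun ρ => (‖ρ‖ ^ 2)⁻¹).sum := by
        simp only [hFdef, ← hT, ← hlow, ← Multiset.sum_add, ← Multiset.map_add, hsplit]
      have hp : (0 : ℝ) < 2 ^ m := by positivity
      have hc2 : (Multiset.card T : ℝ) * ((2 : ℝ) ^ m * 2 ^ m)⁻¹ ≤ 16 * B * (1 / 2) ^ m * (m + 3) := by
        refine (mul_le_mul_of_nonneg_right (hcard.trans (mul_le_mul_of_nonneg_left hrim zero_le_two))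
          (by positivity)).trans (le_of_eq ?_)
        rw [div_pow, one_pow]
        field_simp
        ring
      rw [hFs, pow_succ (1 / 2 : ℝ) m]
      push_cast
      linarith
  obtain ⟨m, hm⟩ := pow_unbounded_of_one_lt ((S.map fun ρ => ‖ρ‖).sum) (one_lt_two (α := ℝ))
  have e : S.filter (fun ρ => ‖ρ‖ ≤ (2 : ℝ) ^ m) = S := Multiset.filter_eq_self.2 fun ρ hρ =>
    (Multiset.single_le_sum (fun x hx => by
      obtain ⟨y, -, rfl⟩ := Multiset.mem_map.1 hx
      exact norm_nonneg y) _ (Multiset.mem_map_of_mem _ hρ)).trans hm.le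
  have h1 := hF m
  simp only [hFdef, e] at h1
  have : 0 ≤ 16 * B * ((1 / 2) ^ m * (8 + 2 * m)) := by positivity
  linarith

/-- **Power sums over the zeros and derivatives of `f'/f`.** -/
theorem exists_zero_powSums {f : ℂ → ℂ} (hd : Differentiable ℂ f) (h0 : f 0 ≠ 0) {B : ℝ}
    (hB : 0 < B) (hf : Grows f B) (hz : ∀ ρ, f ρ = 0 → 1 < ‖ρ‖) (J r₀ : ℝ) (hJ : 0 ≤ J) {ε : ℝ}
    (hε : 0 < ε) :
    ∃ S : Multiset ℂ, (∀ ρ ∈ S, f ρ = 0) ∧ (∀ ρ, ‖ρ‖ ≤ r₀ → f ρ = 0 → ρ ∈ S) ∧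
      (S.map fun ρ => (‖ρ‖ ^ 2)⁻¹).sum ≤ 128 * B ∧
      ∀ j : ℕ, 1 ≤ j → (j : ℝ) ≤ J →
        ‖(S.map fun ρ => ((ρ ^ 2)⁻¹) ^ j).sum +
          iteratedDeriv (2 * j - 1) (logDeriv f) 0 / ((2 * j - 1)! : ℂ)‖ ≤ ε := by
  obtain ⟨R, hRdef⟩ : ∃ R, R = max (max 2 r₀) ((320 * J * B / ε) ^ 2) := ⟨_, rfl⟩
  have hR2 : 2 ≤ R := hRdef ▸ (le_max_left _ _).trans (le_max_left _ _)
  have hR0 : r₀ ≤ R := hRdef ▸ (le_max_right _ _).trans (le_max_left _ _)
  have hRε : 320 * J * B / ε ≤ √R :=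
    Real.le_sqrt_of_sq_le (hRdef ▸ le_max_right _ _)
  obtain ⟨M, hMdef⟩ : ∃ M, M = rimB B R := ⟨_, rfl⟩
  have hM0 : 0 < M := by
    rw [hMdef, rimB]
    have : 0 < Real.log (3 * R + 3) := Real.log_pos (by linarith)
    positivity
  have hM : M ≤ 20 * B * (R * √R) := by
    rw [hMdef, rimB]
    have h1 : Real.log (3 * R + 3) ≤ 5 * √R := by
      refine (log_le_two_sqrt (by linarith)).trans ?_
      rw [show 5 * √R = 2 * (5 / 2 * √R) by ring]
      refine mul_le_mul_of_nonneg_left ?_ zero_le_two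
      rw [Real.sqrt_le_left (by positivity), mul_pow, Real.sq_sqrt (by linarith)]
      linarith
    refine le_trans (mul_le_mul_of_nonneg_left (mul_le_mul (show 3 * R + 1 ≤ 4 * R by linarith) h1
      (Real.log_nonneg (by linarith)) (by linarith)) hB.le) (le_of_eq ?_)
    ring
  have hrim : ∀ z ∈ sphere (0 : ℂ) (3 * R), ‖f z‖ ≤ Real.exp M * ‖f 0‖ := hMdef ▸ hf.on_rim
  obtain ⟨S, g, hS, hSR, hg⟩ := exists_divides hd h0 (by linarith) hrim
  have hzero : ∀ ρ ∈ S, f ρ = 0 := fun ρ hρ => hS.mem_zero hρ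
  refine ⟨S, hzero, fun ρ hρ hρ0 => ?_, hS.sum_inv_sq_le h0 hB.le hf fun ρ hρ => hz ρ (hzero ρ hρ),
    fun j hj1 hjJ => ?_⟩
  · rw [hS.eq ρ] at hρ0
    obtain ⟨x, hx, he⟩ := Multiset.mem_map.1 (Multiset.prod_eq_zero_iff.1
      ((mul_eq_zero.1 hρ0).resolve_right (hg ρ (hρ.trans hR0))))
    rwa [sub_eq_zero.1 he]
  obtain ⟨k, hk⟩ : ∃ k, k = 2 * j - 1 := ⟨_, rfl⟩
  rw [← hk]
  have hk1 : k + 1 = 2 * j := by omega
  have he := hS.iteratedDeriv_logDeriv k fun ρ hρ h => h0 (h ▸ hzero ρ hρ)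
  have hodd : (-1 : ℂ) ^ k = -1 := Odd.neg_one_pow ⟨j - 1, by omega⟩
  have hsum : (S.map fun ρ => ((ρ ^ 2)⁻¹) ^ j) = S.map fun ρ => ((-ρ) ^ (k + 1))⁻¹ :=
    Multiset.map_congr rfl fun ρ _ => by rw [hk1, pow_mul, neg_sq, inv_pow]
  have hf0 : (k ! : ℂ) ≠ 0 := Nat.cast_ne_zero.2 (Nat.factorial_ne_zero k)
  have hval : (S.map fun ρ => ((ρ ^ 2)⁻¹) ^ j).sum + iteratedDeriv k (logDeriv f) 0 / (k ! : ℂ) =
      iteratedDeriv k (logDeriv g) 0 / (k ! : ℂ) := by
    rw [hsum, he, hodd]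
    field_simp
    ring
  have hgb : ∀ z : ℂ, ‖z‖ ≤ R → ‖g z‖ ≤ Real.exp M * ‖g 0‖ := fun z hz' =>
    (le_mul_of_one_le_left (norm_nonneg _) (one_le_pow₀ one_le_two)).trans
      (hS.two_pow_mul_le (by linarith) hSR hrim (mem_closedBall_zero_iff.2 (by linarith)))
  rw [hval, norm_div, RCLike.norm_natCast, div_le_iff₀ (by positivity)]
  refine (norm_iteratedDeriv_logDeriv_le hS.diff (by linarith) hM0 hg hgb k).trans ?_
  rw [Nat.factorial_succ, Nat.cast_mul, hk1]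
  have hpow : (R / 2) ^ 2 ≤ (R / 2) ^ (2 * j) := pow_le_pow_right₀ (by linarith) (by omega)
  have hs0 : 0 < √R := Real.sqrt_pos.2 (by linarith)
  have key : ((2 * j : ℕ) : ℝ) * (2 * M) / (R / 2) ^ (2 * j) ≤ ε := by
    refine (div_le_div_of_nonneg_left (by positivity) (by positivity) hpow).trans ?_
    rw [div_le_iff₀ (by positivity)]
    rw [div_le_iff₀ hε] at hRε
    push_cast
    calc 2 * (j : ℝ) * (2 * M) ≤ 2 * J * (2 * (20 * B * (R * √R))) := by gcongr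
      _ = (320 * J * B) * (R * √R) / 4 := by ring
      _ ≤ √R * ε * (R * √R) / 4 := by gcongr
      _ = ε * (R / 2) ^ 2 := by
        rw [show √R * ε * (R * √R) = √R * √R * (ε * R) by ring, Real.mul_self_sqrt (by linarith)]
        ring
  refine le_trans (le_of_eq ?_) (mul_le_mul_of_nonneg_right key (Nat.cast_nonneg _))
  ring

end FA.DeuringHeilbronn

end
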