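import Fermat.Agent.DedekindPrimeIdeals.LogDeriv

/-!
# Growth of a Dedekind zeta function in the whole plane, uniformly in the field

To the left of the strip `-4 ≤ re s ≤ 5` the functional equation is applied in steps of `2`: each step
multiplies by `d ^ 2` and a polynomial of degree `2 n`. So `(s - 1) ζ_K` is
`exp (O (H(t) (|w| + 1) log (|w| + 3)))` at `2 + i t + w`, `H(t) = 1 + log |d| + n log (|t| + 3)`.
-/

set_option autoImplicit false
set_option linter.style.haveILetI false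

noncomputable section

universe u

open NumberField InfinitePlace Module Complex
open FA.HeckeBS FA.HeckeFE FA.DedekindZF
open scoped Real Classical

namespace FA.DeuringHeilbronn

variable (K : Type u) [Field K] [NumberField K]

/-- The norm of the factor of the functional equation. -/
def feFac (z : ℂ) : ℝ :=
  (((discr K).natAbs : ℕ) : ℝ) ^ (1 / 2 - z.re) *
    ((‖Gammaℝ (1 - z)‖ * ‖(Gammaℝ z)⁻¹‖) ^ nrRealPlaces K *
      ((‖Gammaℝ (1 - z)‖ * ‖(Gammaℝ z)⁻¹‖) *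
        (‖Gammaℝ (1 - z + 1)‖ * ‖(Gammaℝ (z + 1))⁻¹‖)) ^ nrComplexPlaces K)

theorem feFac_nonneg (z : ℂ) : 0 ≤ feFac K z := by
  rw [feFac]; positivity

theorem norm_Gammaℝ_pair_step {w : ℂ} (hw : 0 < w.re) (v : ℂ) :
    ‖Gammaℝ (w + 2)‖ * ‖(Gammaℝ (v - 2))⁻¹‖ =
      ‖w‖ / (2 * π) * (‖v - 2‖ / (2 * π)) * (‖Gammaℝ w‖ * ‖(Gammaℝ v)⁻¹‖) := by
  have h1 := congrArg norm (inv_Gammaℝ_eq w)
  have h2 := congrArg norm (inv_Gammaℝ_eq (v - 2))
  rw [sub_add_cancel] at h2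
  rw [norm_mul, norm_div, norm_mul, norm_real, Real.norm_of_nonneg Real.pi_pos.le,
    RCLike.norm_ofNat] at h1 h2
  have hp := norm_pos_iff.2 (Gammaℝ_ne_zero_of_re_pos hw)
  have hp2 : 0 < ‖Gammaℝ (w + 2)‖ :=
    norm_pos_iff.2 (Gammaℝ_ne_zero_of_re_pos (by simp; linarith))
  rw [norm_inv, norm_inv] at h1
  have he : ‖Gammaℝ (w + 2)‖ = ‖w‖ / (2 * π) * ‖Gammaℝ w‖ := by
    field_simp at h1 ⊢
    linarith
  rw [h2, he]
  ring

/-- One step to the left. -/
theorem feFac_sub_two_le {z : ℂ} (hz : z.re ≤ -2) :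
    feFac K (z - 2) ≤
      (((discr K).natAbs : ℕ) : ℝ) ^ (2 : ℕ) * (‖z‖ + 3) ^ (2 * finrank ℚ K) * feFac K z := by
  have hd0 : (0 : ℝ) < (((discr K).natAbs : ℕ) : ℝ) :=
    Nat.cast_pos.2 (Int.natAbs_pos.2 (discr_ne_zero K))
  obtain ⟨d, hd⟩ : ∃ d : ℝ, d = (((discr K).natAbs : ℕ) : ℝ) := ⟨_, rfl⟩
  obtain ⟨B, hB⟩ : ∃ B, B = ‖z‖ + 3 := ⟨_, rfl⟩
  have hB1 : 1 ≤ B := by rw [hB]; linarith [norm_nonneg z]
  have hle : ∀ v : ℂ, ‖v‖ ≤ B → ‖v‖ / (2 * π) ≤ B := fun v hv =>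
    (div_le_self (norm_nonneg _) (by linarith [Real.pi_gt_three])).trans hv
  have hbd : ∀ (c : ℂ), ‖c‖ ≤ 3 → ‖z - c‖ ≤ B ∧ ‖c - z‖ ≤ B := fun c hc => by
    rw [norm_sub_rev c z]
    exact ⟨(norm_sub_le _ _).trans (by linarith), (norm_sub_le _ _).trans (by linarith)⟩
  have e1 : ‖Gammaℝ (1 - (z - 2))‖ * ‖(Gammaℝ (z - 2))⁻¹‖ ≤
      B ^ 2 * (‖Gammaℝ (1 - z)‖ * ‖(Gammaℝ z)⁻¹‖) := by
    rw [show 1 - (z - 2) = 1 - z + 2 by ring, norm_Gammaℝ_pair_step (by simp; linarith), sq]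
    gcongr
    · exact hle _ (hbd 1 (by norm_num)).2
    · exact hle _ (hbd 2 (by norm_num)).1
  have e2 : ‖Gammaℝ (1 - (z - 2) + 1)‖ * ‖(Gammaℝ (z - 2 + 1))⁻¹‖ ≤
      B ^ 2 * (‖Gammaℝ (1 - z + 1)‖ * ‖(Gammaℝ (z + 1))⁻¹‖) := by
    rw [show 1 - (z - 2) + 1 = 1 - z + 1 + 2 by ring, show z - 2 + 1 = z + 1 - 2 by ring,
      norm_Gammaℝ_pair_step (by simp; linarith), sq]
    gcongr
    · rw [show (1 : ℂ) - z + 1 = 2 - z by ring]; exact hle _ (hbd 2 (by norm_num)).2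
    · rw [show z + 1 - 2 = z - 1 by ring]; exact hle _ (hbd 1 (by norm_num)).1
  simp only [feFac, ← hd, ← hB]
  rw [show (1 / 2 : ℝ) - (z - 2).re = 1 / 2 - z.re + (2 : ℕ) by simp; ring,
    Real.rpow_add (hd ▸ hd0), Real.rpow_natCast]
  have hd' : 0 ≤ d := hd ▸ hd0.le
  calc _ ≤ d ^ (1 / 2 - z.re) * d ^ (2 : ℕ) *
        ((B ^ 2 * (‖Gammaℝ (1 - z)‖ * ‖(Gammaℝ z)⁻¹‖)) ^ nrRealPlaces K *
          (B ^ 2 * (‖Gammaℝ (1 - z)‖ * ‖(Gammaℝ z)⁻¹‖) *
            (B ^ 2 * (‖Gammaℝ (1 - z + 1)‖ * ‖(Gammaℝ (z + 1))⁻¹‖))) ^ nrComplexPlaces K) := by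
        gcongr
    _ = _ := by
        rw [← card_add_two_mul_card_eq_rank K]
        simp only [mul_pow, pow_add, pow_mul, mul_add]
        ring

variable {K} {E : ℂ → ℂ} (hE : Differentiable ℂ E)
  (hEL : ∀ s : ℂ, 1 < s.re → E s = (s - 1) * dedekindZeta K s)

include hE hEL in
/-- The functional equation in absolute values. -/
theorem norm_cleared_left {z : ℂ} (hz : z.re < 0) :
    ‖E z‖ = ‖1 - z‖ * feFac K z * ‖dedekindZeta K (1 - z)‖ := by
  have hz0 : z ≠ 0 := fun h => by rw [h] at hz; simp at hz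
  have hre : 1 < (1 - z).re := by rw [sub_re, one_re]; linarith
  have h := congrArg norm (mul_cleared_eq K hE hEL z)
  rw [← xiFun_one_sub, xiFun_half K hre, gamFac, ginv, ← Gammaℝ_mul_Gammaℝ_add_one, norm_mul] at h
  simp only [norm_mul, norm_pow, norm_natAbs_cpow, show ‖1 - z - 1‖ = ‖z‖ by
    rw [show 1 - z - 1 = -z by ring, norm_neg]] at h
  have hd0 : (0 : ℝ) < (((discr K).natAbs : ℕ) : ℝ) :=
    Nat.cast_pos.2 (Int.natAbs_pos.2 (discr_ne_zero K))
  have e : (((discr K).natAbs : ℕ) : ℝ) ^ (1 / 2 - z.re) =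
      (((discr K).natAbs : ℕ) : ℝ) ^ ((1 - z) / 2).re *
        (((discr K).natAbs : ℕ) : ℝ) ^ (-(z / 2)).re := by
    rw [← Real.rpow_add hd0]
    congr 1
    simp only [div_ofNat_re, sub_re, one_re, neg_re]
    ring
  refine mul_left_cancel₀ (norm_ne_zero_iff.2 hz0) (h.trans ?_)
  simp only [feFac, e, mul_pow]
  ring

/-- The constant of the growth. -/
def globA : ℝ := 8 * growA + 4 * eulerConst 3 + 40

theorem globA_nonneg : 0 ≤ globA := by
  have := FA.DedekindZF.eulerConst_nonneg 5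
  have := FA.DedekindZF.eulerConst_nonneg 3
  rw [globA, growA]; linarith

include hE hEL in
theorem log_norm_cleared_le (t : ℝ) (w : ℂ) :
    ‖E (2 + t * I + w)‖ ≤ Real.exp (globA * height K t * ((‖w‖ + 1) * Real.log (‖w‖ + 3))) := by
  obtain ⟨z, hz⟩ : ∃ z : ℂ, z = 2 + t * I + w := ⟨_, rfl⟩
  rw [← hz]
  obtain ⟨H, hHdef⟩ : ∃ H, H = height K t := ⟨_, rfl⟩
  obtain ⟨n, hn⟩ : ∃ n : ℝ, n = (finrank ℚ K : ℝ) := ⟨_, rfl⟩
  obtain ⟨D, hD⟩ : ∃ D, D = Real.log (((discr K).natAbs : ℕ) : ℝ) := ⟨_, rfl⟩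
  obtain ⟨ℓ, hℓ⟩ : ∃ ℓ, ℓ = Real.log (‖w‖ + 3) := ⟨_, rfl⟩
  obtain ⟨r, hr⟩ : ∃ r, r = ‖w‖ + 1 := ⟨_, rfl⟩
  rw [← hHdef, ← hℓ, ← hr]
  have hw0 := norm_nonneg w
  have hr1 : 1 ≤ r := by linarith
  have hℓ1 : 1 ≤ ℓ := by
    rw [hℓ, show ‖w‖ + 3 = |‖w‖| + 3 by rw [abs_of_nonneg hw0]]
    exact one_le_log _
  have hH1 : 1 ≤ H := hHdef ▸ one_le_height K t
  have hnH : n ≤ H := hn ▸ hHdef ▸ finrank_le_height K t
  have hn1 : 1 ≤ n := hn ▸ Nat.one_le_cast.2 finrank_pos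
  have hD0 : 0 ≤ D := hD ▸ Real.log_natCast_nonneg _
  have hH : H = 1 + D + n * Real.log (|t| + 3) := by rw [hHdef, hD, hn, height]
  obtain ⟨u, hu⟩ : ∃ u, u = H * (r * ℓ) := ⟨_, rfl⟩
  rw [mul_assoc, ← hu]
  have hHℓ : H ≤ H * ℓ := le_mul_of_one_le_right (by linarith) hℓ1
  have hu1 : H * ℓ ≤ u := by
    rw [hu]; exact mul_le_mul_of_nonneg_left (le_mul_of_one_le_left (by linarith) hr1) (by linarith)
  have him : z.im = t + w.im := by simp [hz]
  have hzre : z.re = 2 + w.re := by simp [hz]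
  have hzn : ‖z‖ + 3 ≤ (|t| + 3) * (‖w‖ + 3) := by
    have h1 : ‖z‖ ≤ 2 + |t| + ‖w‖ := by
      rw [hz]
      refine (norm_add_le _ _).trans (add_le_add ((norm_add_le _ _).trans ?_) le_rfl)
      simp
    nlinarith [abs_nonneg t]
  have hlog : n * Real.log (‖z‖ + 3) ≤ 2 * (H * ℓ) := by
    have h1 : Real.log (‖z‖ + 3) ≤ Real.log (|t| + 3) + ℓ := by
      rw [hℓ, ← Real.log_mul (by positivity) (by positivity)]
      exact Real.log_le_log (by positivity) hzn
    have h2 := mul_le_mul_of_nonneg_left h1 (by linarith : (0 : ℝ) ≤ n)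
    have h3 := mul_le_mul_of_nonneg_right hnH (by linarith : (0 : ℝ) ≤ ℓ)
    linarith
  have hheight : ∀ s : ℝ, |s| ≤ ‖z‖ → height K s ≤ 3 * u := fun s hs => by
    have h1 : n * Real.log (|s| + 3) ≤ n * Real.log (‖z‖ + 3) :=
      mul_le_mul_of_nonneg_left (Real.log_le_log (by positivity) (by linarith)) (by linarith)
    have h2 : 0 ≤ n * Real.log (|t| + 3) := mul_nonneg (by linarith) (zero_le_one.trans (one_le_log t))
    rw [height, ← hD, ← hn]
    linarith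
  have hz1 : ‖1 - z‖ ≤ Real.exp (2 * u) := by
    refine le_trans (show ‖1 - z‖ ≤ ‖z‖ + 3 by linarith [norm_sub_le (1 : ℂ) z, norm_one (α := ℂ)]) ?_
    rw [← Real.log_le_iff_le_exp (by positivity)]
    have : 0 ≤ Real.log (‖z‖ + 3) := Real.log_nonneg (by linarith [norm_nonneg z])
    nlinarith
  have hnu : n ≤ u := by linarith
  rcases le_or_gt 5 z.re with h5 | h5
  · have hs : 1 < z.re := by linarith
    rw [hEL z hs, norm_mul, norm_sub_rev]
    have hζ : ‖dedekindZeta K z‖ ≤ Real.exp (u * eulerConst 3) := by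
      refine (norm_dedekindZeta_bounds (K := K) hs).2.trans (Real.exp_le_exp.2 ?_)
      rw [← hn]
      exact mul_le_mul hnu (eulerConst_anti (by norm_num) (by linarith : (3 : ℝ) ≤ z.re))
        (FA.DedekindZF.eulerConst_nonneg _) (by linarith)
    refine (mul_le_mul hz1 hζ (norm_nonneg _) (Real.exp_pos _).le).trans ?_
    rw [← Real.exp_add]
    refine Real.exp_le_exp.2 ?_
    have := mul_nonneg (show (0 : ℝ) ≤ u by linarith) (FA.DedekindZF.eulerConst_nonneg 3)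
    have := mul_nonneg (show (0 : ℝ) ≤ u by linarith) (FA.DedekindZF.eulerConst_nonneg 5)
    rw [globA, growA]
    linarith
  have hgrow : ∀ v : ℂ, v.re ∈ Set.Icc (-4 : ℝ) 5 → |v.im| ≤ ‖z‖ →
      ‖E v‖ ≤ Real.exp (3 * growA * u) := fun v hv hv' => by
    refine (FA.DedekindPIT.norm_cleared_le hE hEL hv).trans (Real.exp_le_exp.2 ?_)
    have h5' := FA.DedekindZF.eulerConst_nonneg 5
    refine (mul_le_mul_of_nonneg_left (hheight _ hv') (by rw [growA]; linarith)).trans (le_of_eq ?_)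
    ring
  rcases le_or_gt (-4) z.re with h4 | h4
  · refine (hgrow z ⟨h4, h5.le⟩ (Complex.abs_im_le_norm z)).trans (Real.exp_le_exp.2 ?_)
    have := mul_nonneg (show (0 : ℝ) ≤ u by linarith) (FA.DedekindZF.eulerConst_nonneg 3)
    have := mul_nonneg (show (0 : ℝ) ≤ u by linarith) (FA.DedekindZF.eulerConst_nonneg 5)
    rw [globA, growA]
    linarith
  -- steps of two to the left
  obtain ⟨m, hm⟩ : ∃ m : ℕ, m = ⌊(-2 - z.re) / 2⌋₊ := ⟨_, rfl⟩
  have hm1 : 2 * (m : ℝ) ≤ -2 - z.re := by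
    have := Nat.floor_le (show 0 ≤ (-2 - z.re) / 2 by linarith)
    rw [← hm] at this
    linarith
  have hm2 : -2 - z.re < 2 * (m : ℝ) + 2 := by
    have := Nat.lt_floor_add_one ((-2 - z.re) / 2)
    rw [← hm] at this
    linarith
  obtain ⟨v, hv⟩ : ∃ v : ℂ, v = z + 2 * m := ⟨_, rfl⟩
  have hvre : v.re = z.re + 2 * m := by simp [hv]
  have hvim : v.im = z.im := by simp [hv]
  have hB1 : (1 : ℝ) ≤ ‖z‖ + 3 := by linarith [norm_nonneg z]
  have hd1 : (1 : ℝ) ≤ (((discr K).natAbs : ℕ) : ℝ) :=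
    Nat.one_le_cast.2 (Int.natAbs_pos.2 (discr_ne_zero K))
  have hstep : ∀ k : ℕ, k ≤ m → feFac K (v - 2 * k) ≤
      ((((discr K).natAbs : ℕ) : ℝ) ^ (2 : ℕ) * (‖z‖ + 3) ^ (2 * finrank ℚ K)) ^ k * feFac K v := by
    intro k hk
    induction k with
    | zero => simp
    | succ k ih =>
      have hk' : (k : ℝ) + 1 ≤ m := by exact_mod_cast hk
      have hre : (v - 2 * (k : ℂ)).re = z.re + 2 * ((m : ℝ) - k) := by simp [hvre]; ring
      have hle : (v - 2 * (k : ℂ)).re ≤ -2 := by rw [hre]; linarith [(Nat.cast_nonneg k : (0 : ℝ) ≤ k)]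
      have hnorm : ‖v - 2 * (k : ℂ)‖ ≤ ‖z‖ := by
        rw [Complex.norm_def, Complex.norm_def]
        refine Real.sqrt_le_sqrt ?_
        rw [normSq_apply, normSq_apply]
        have him' : (v - 2 * (k : ℂ)).im = z.im := by simp [hvim]
        rw [him']
        have : (v - 2 * (k : ℂ)).re * (v - 2 * (k : ℂ)).re ≤ z.re * z.re := by nlinarith
        linarith
      rw [show v - 2 * ((k + 1 : ℕ) : ℂ) = v - 2 * (k : ℂ) - 2 by push_cast; ring, pow_succ']
      refine (feFac_sub_two_le K hle).trans ?_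
      rw [mul_assoc ((((discr K).natAbs : ℕ) : ℝ) ^ (2 : ℕ) * (‖z‖ + 3) ^ (2 * finrank ℚ K))]
      refine mul_le_mul (mul_le_mul_of_nonneg_left (pow_le_pow_left₀ (by positivity)
        (by linarith) _) (by positivity)) (ih (by omega)) (feFac_nonneg K _) (by positivity)
  have hfz := hstep m le_rfl
  rw [show v - 2 * (m : ℂ) = z by rw [hv]; ring] at hfz
  have hvn : |v.im| ≤ ‖z‖ := hvim ▸ Complex.abs_im_le_norm z
  have hv0 : v.re < 0 := by linarith
  have hEv := hgrow v ⟨by linarith, by linarith⟩ hvn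
  have hre1 : 1 < (1 - v).re := by simp; linarith
  have hζv : Real.exp (-(u * eulerConst 3)) ≤ ‖dedekindZeta K (1 - v)‖ := by
    refine le_trans (Real.exp_le_exp.2 ?_) (norm_dedekindZeta_bounds (K := K) hre1).1
    have h1 : eulerConst (1 - v).re ≤ eulerConst 3 :=
      eulerConst_anti (by norm_num) (by simp; linarith)
    have := mul_le_mul hnu h1 (FA.DedekindZF.eulerConst_nonneg _) (by linarith)
    rw [← hn]
    linarith
  have hvv : 1 ≤ ‖1 - v‖ := le_trans (by simp; linarith) (Complex.re_le_norm (1 - v))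
  have hF : feFac K v ≤ Real.exp (3 * growA * u) * Real.exp (u * eulerConst 3) := by
    have hEq := norm_cleared_left hE hEL hv0
    have h1 : feFac K v * Real.exp (-(u * eulerConst 3)) ≤ ‖E v‖ := by
      rw [hEq]
      refine mul_le_mul (le_mul_of_one_le_left (feFac_nonneg K v) hvv) hζv (Real.exp_pos _).le
        (mul_nonneg (norm_nonneg _) (feFac_nonneg K v))
    rw [← div_le_iff₀ (Real.exp_pos _), div_eq_mul_inv, ← Real.exp_neg]
    exact le_trans (le_of_eq rfl) (h1.trans hEv)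
  have hmr : (m : ℝ) ≤ r := by
    have := abs_le.1 (Complex.abs_re_le_norm w)
    linarith
  have hpow : ((((discr K).natAbs : ℕ) : ℝ) ^ (2 : ℕ) * (‖z‖ + 3) ^ (2 * finrank ℚ K)) ^ m ≤
      Real.exp (6 * u) := by
    rw [← Real.log_le_iff_le_exp (by positivity), Real.log_pow, Real.log_mul (by positivity)
      (by positivity), Real.log_pow, Real.log_pow, ← hD]
    push_cast
    rw [← hn]
    have h2 : 0 ≤ n * Real.log (|t| + 3) := mul_nonneg (by linarith) (zero_le_one.trans (one_le_log t))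
    have hDH : D ≤ H * ℓ := by linarith
    calc (m : ℝ) * (2 * D + 2 * n * Real.log (‖z‖ + 3)) ≤ r * (6 * (H * ℓ)) :=
          mul_le_mul hmr (by linarith) (by
            have : 0 ≤ Real.log (‖z‖ + 3) := Real.log_nonneg hB1
            positivity) (by linarith)
      _ = _ := by rw [hu]; ring
  have hre2 : 1 < (1 - z).re := by simp; linarith
  have hζz : ‖dedekindZeta K (1 - z)‖ ≤ Real.exp (u * eulerConst 3) := by
    refine (norm_dedekindZeta_bounds (K := K) hre2).2.trans (Real.exp_le_exp.2 ?_)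
    rw [← hn]
    exact mul_le_mul hnu (eulerConst_anti (by norm_num) (by simp; linarith))
      (FA.DedekindZF.eulerConst_nonneg _) (by linarith)
  rw [norm_cleared_left hE hEL (by linarith)]
  refine (mul_le_mul (mul_le_mul hz1 (hfz.trans (mul_le_mul hpow hF (feFac_nonneg K v)
    (Real.exp_pos _).le)) (feFac_nonneg K z) (Real.exp_pos _).le) hζz (norm_nonneg _)
    (by positivity)).trans ?_
  simp only [← Real.exp_add]
  refine Real.exp_le_exp.2 ?_
  have := mul_nonneg (show (0 : ℝ) ≤ u by linarith) (FA.DedekindZF.eulerConst_nonneg 3)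
  have := mul_nonneg (show (0 : ℝ) ≤ u by linarith) (FA.DedekindZF.eulerConst_nonneg 5)
  rw [globA, growA]
  linarith

include hE hEL in
/-- **Growth about `2 + it`, relative to the value there.** -/
theorem norm_cleared_le_center (t : ℝ) (w : ℂ) :
    ‖E (2 + t * I + w)‖ ≤ Real.exp ((globA + 11) * height K t * ((‖w‖ + 1) * Real.log (‖w‖ + 3))) *
      ‖E (2 + t * I)‖ := by
  have hre : (2 + (t : ℂ) * I).re = 2 := by simp
  have him : (2 + (t : ℂ) * I).im = t := by simp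
  have hl := FA.DedekindPIT.neg_log_cleared_le_div hEL (z := 2 + t * I) (by linarith) (by linarith)
  rw [hre, him] at hl
  norm_num at hl
  have hne : E (2 + t * I) ≠ 0 := cleared_ne_zero hE hEL (by linarith)
  have hw0 := norm_nonneg w
  have h1 : 1 ≤ (‖w‖ + 1) * Real.log (‖w‖ + 3) := by
    refine one_le_mul_of_one_le_of_one_le (by linarith) ?_
    rw [show ‖w‖ + 3 = |‖w‖| + 3 by rw [abs_of_nonneg hw0]]
    exact one_le_log _
  have hH := one_le_height K t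
  refine (log_norm_cleared_le hE hEL t w).trans ?_
  rw [← Real.exp_log (norm_pos_iff.2 hne), ← Real.exp_add]
  refine Real.exp_le_exp.2 ?_
  nlinarith [mul_le_mul_of_nonneg_left h1 (show 0 ≤ 11 * height K t by linarith)]

end FA.DeuringHeilbronn

end
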