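import Mathlib.Analysis.Complex.AbsMax
import Mathlib.Analysis.SpecialFunctions.Complex.Log

/-!
# The power sums of Turán, after Lagarias, Montgomery and Odlyzko

If `a` is of largest absolute value among finitely many complex numbers `z` with `∑ |z| ≤ L |a|`, then
`re ∑ z ^ j ≥ |a| ^ j / 8` for some `1 ≤ j ≤ 32 L + 8`. The proof averages over `j` with Fejér's
kernel, whose harmonic extension to the disc is at least `- 1 / 2` and at least `- 2 |z|`.
-/

set_option autoImplicit false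

noncomputable section

open Complex Finset Metric
open scoped Real ComplexConjugate

namespace FA.DeuringHeilbronn

/-- The weights of Fejér. -/
def fejW (J j : ℕ) : ℝ := 1 - (j : ℝ) / (J + 1)

theorem fejW_nonneg {J j : ℕ} (hj : j ≤ J) : 0 ≤ fejW J j := by
  rw [fejW, sub_nonneg, div_le_one (by positivity)]
  exact_mod_cast hj.trans (Nat.le_succ J)

theorem fejW_le_one (J j : ℕ) : fejW J j ≤ 1 := sub_le_self 1 (by positivity)

/-- The harmonic extension of Fejér's kernel, without the constant term. -/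
def fejP (J : ℕ) (z : ℂ) : ℝ := ∑ j ∈ Icc 1 J, fejW J j * (z ^ j).re

theorem sum_fejW (J : ℕ) : ∑ j ∈ Icc 1 J, fejW J j = J / 2 := by
  have h : ∀ n : ℕ, ∑ j ∈ Icc 1 n, (j : ℝ) = n * (n + 1) / 2 := fun n => by
    induction n with
    | zero => simp
    | succ k ih =>
      rw [sum_Icc_succ_top (by omega), ih]
      push_cast
      ring
  simp only [fejW, sum_sub_distrib, sum_const, Nat.card_Icc, Nat.add_sub_cancel, nsmul_eq_mul,
    mul_one, ← sum_div, h]
  field_simp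
  ring

theorem fejP_one (J : ℕ) : fejP J 1 = J / 2 := by
  simp [fejP, sum_fejW]

/-- Fejér's identity. -/
theorem fejer_identity {w : ℂ} (hw : ‖w‖ = 1) : ∀ J : ℕ,
    ((J : ℝ) + 1) / 2 + ∑ j ∈ Icc 1 J, ((J : ℝ) + 1 - j) * (w ^ j).re =
      normSq (∑ i ∈ range (J + 1), w ^ i) / 2 := fun J => by
  induction J with
  | zero => simp
  | succ k ih =>
    have h1 : normSq (w ^ (k + 1)) = 1 := by rw [normSq_eq_norm_sq, norm_pow, hw, one_pow, one_pow]
    have h2 : ((∑ i ∈ range (k + 1), w ^ i) * conj (w ^ (k + 1))).re =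
        ∑ j ∈ Icc 1 (k + 1), (w ^ j).re := by
      rw [Finset.sum_mul, Complex.re_sum]
      refine Finset.sum_nbij' (fun i => k + 1 - i) (fun j => k + 1 - j) ?_ ?_ ?_ ?_ ?_
      · intro i hi; simp only [Finset.mem_range, mem_Icc] at hi ⊢; omega
      · intro j hj; simp only [Finset.mem_range, mem_Icc] at hj ⊢; omega
      · intro i hi; simp only [Finset.mem_range] at hi; omega
      · intro j hj; simp only [mem_Icc] at hj; omega
      · intro i hi
        rw [Finset.mem_range] at hi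
        have e : w ^ (k + 1) = w ^ i * w ^ (k + 1 - i) := by
          rw [← pow_add, Nat.add_sub_cancel' (by omega)]
        have h3 : w ^ i * conj (w ^ i) = 1 := by
          rw [mul_conj, normSq_eq_norm_sq, norm_pow, hw, one_pow, one_pow, ofReal_one]
        show (w ^ i * conj (w ^ (k + 1))).re = (w ^ (k + 1 - i)).re
        rw [e, map_mul, ← mul_assoc, h3, one_mul, conj_re]
    rw [Finset.sum_range_succ _ (k + 1), normSq_add, h1, h2]
    have h4 : ∑ j ∈ Icc 1 (k + 1), (((k + 1 : ℕ) : ℝ) + 1 - j) * (w ^ j).re =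
        ∑ j ∈ Icc 1 (k + 1), ((k : ℝ) + 1 - j) * (w ^ j).re + ∑ j ∈ Icc 1 (k + 1), (w ^ j).re := by
      rw [← Finset.sum_add_distrib]
      refine Finset.sum_congr rfl fun j _ => ?_
      push_cast
      ring
    have h5 : ∑ j ∈ Icc 1 (k + 1), ((k : ℝ) + 1 - j) * (w ^ j).re =
        ∑ j ∈ Icc 1 k, ((k : ℝ) + 1 - j) * (w ^ j).re := by
      rw [sum_Icc_succ_top (by omega)]
      push_cast
      ring
    rw [h4, h5]
    push_cast
    linarith

theorem fejP_ge_neg_half_of_circle (J : ℕ) {w : ℂ} (hw : ‖w‖ = 1) : -(1 / 2) ≤ fejP J w := by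
  have h := fejer_identity hw J
  have e : ((J : ℝ) + 1) * fejP J w = ∑ j ∈ Icc 1 J, ((J : ℝ) + 1 - j) * (w ^ j).re := by
    rw [fejP, Finset.mul_sum]
    refine Finset.sum_congr rfl fun j _ => ?_
    rw [fejW]
    field_simp
  have h0 := normSq_nonneg (∑ i ∈ range (J + 1), w ^ i)
  have hJ : (0 : ℝ) < (J : ℝ) + 1 := by positivity
  nlinarith

/-- **At least `- 1 / 2` on the disc.** -/
theorem fejP_ge_neg_half (J : ℕ) {z : ℂ} (hz : ‖z‖ ≤ 1) : -(1 / 2) ≤ fejP J z := by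
  set q : ℂ → ℂ := fun u => ∑ j ∈ Icc 1 J, (fejW J j : ℂ) * u ^ j
  have hq : ∀ u, (q u).re = fejP J u := fun u => by simp [q, fejP, Complex.re_sum]
  have hd : DiffContOnCl ℂ (fun u => Complex.exp (-q u)) (ball (0 : ℂ) 1) := by
    refine Differentiable.diffContOnCl ?_
    fun_prop
  have h := Complex.norm_le_of_forall_mem_frontier_norm_le isBounded_ball hd (C := Real.exp (1 / 2))
    (fun u hu => ?_) (z := z) (by rw [closure_ball _ one_ne_zero, mem_closedBall_zero_iff]; exact hz)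
  · rw [Complex.norm_exp, Real.exp_le_exp, neg_re, hq] at h
    linarith
  · rw [frontier_ball _ one_ne_zero, mem_sphere_zero_iff_norm] at hu
    rw [Complex.norm_exp, Real.exp_le_exp, neg_re, hq]
    linarith [fejP_ge_neg_half_of_circle J hu]

/-- **At least `- 2 |z|` on the disc.** -/
theorem fejP_ge_neg_norm (J : ℕ) {z : ℂ} (hz : ‖z‖ ≤ 1) : -(2 * ‖z‖) ≤ fejP J z := by
  rcases le_or_gt (1 / 4) ‖z‖ with h | h
  · linarith [fejP_ge_neg_half J hz]
  have hgeo : ∀ n : ℕ, ∑ j ∈ Icc 1 n, ‖z‖ ^ j ≤ 2 * ‖z‖ * (1 - (1 / 2) ^ n) := fun n => by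
    induction n with
    | zero => simp
    | succ k ih =>
      rw [sum_Icc_succ_top (by omega)]
      have h1 : ‖z‖ ^ k ≤ (1 / 2) ^ k := pow_le_pow_left₀ (norm_nonneg _) (by linarith) k
      have h2 := mul_le_mul_of_nonneg_left h1 (norm_nonneg z)
      rw [pow_succ' ‖z‖ k, pow_succ' (1 / 2 : ℝ) k]
      linarith
  have h1 : -fejP J z ≤ ∑ j ∈ Icc 1 J, ‖z‖ ^ j := by
    rw [fejP, ← Finset.sum_neg_distrib]
    refine Finset.sum_le_sum fun j hj => ?_
    refine (neg_le_abs _).trans ?_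
    rw [abs_mul, abs_of_nonneg (fejW_nonneg (mem_Icc.1 hj).2), ← norm_pow]
    exact (mul_le_mul (fejW_le_one J j) (abs_re_le_norm _) (abs_nonneg _) zero_le_one).trans_eq
      (one_mul _)
  have h2 := hgeo J
  have h3 : 0 ≤ ‖z‖ * (1 / 2 : ℝ) ^ J := by positivity
  linarith

theorem smoothed_eq (J : ℕ) (z a : ℂ) :
    ∑ j ∈ Icc 1 J, fejW J j * (1 + (a ^ j).re) * (z ^ j).re =
      fejP J z + (fejP J (z * a) + fejP J (z * conj a)) / 2 := by
  simp only [fejP, ← Finset.sum_add_distrib, Finset.sum_div]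
  refine Finset.sum_congr rfl fun j _ => ?_
  rw [mul_pow, mul_pow, ← map_pow, mul_re, mul_re, conj_re, conj_im]
  ring

/-- The normalised form, with room `e j` at the exponent `j`. -/
theorem exists_re_powSum_ge_one_add (S : Multiset ℂ) {a : ℂ} (ha : a ∈ S) (ha1 : ‖a‖ = 1)
    (hmax : ∀ z ∈ S, ‖z‖ ≤ 1) {Lb : ℝ} (hL : (S.map fun z => ‖z‖).sum ≤ Lb) {e : ℕ → ℝ}
    (he : ∀ j, 0 ≤ e j) {E : ℝ} (hE : ∀ J, ∑ j ∈ Icc 1 J, e j ≤ E) :
    ∃ j : ℕ, 1 ≤ j ∧ (j : ℝ) ≤ 32 * Lb + 16 * E + 8 ∧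
      1 / 8 + e j ≤ (S.map fun z => z ^ j).sum.re := by
  obtain ⟨S', rfl⟩ := Multiset.exists_cons_of_mem ha
  rw [Multiset.map_cons, Multiset.sum_cons, ha1] at hL
  have hS0 : ∀ T : Multiset ℂ, 0 ≤ (T.map fun z => ‖z‖).sum := fun T =>
    Multiset.sum_nonneg fun x hx => by
      obtain ⟨y, -, rfl⟩ := Multiset.mem_map.1 hx
      exact norm_nonneg y
  have hL1 : 1 ≤ Lb := by linarith [hS0 S']
  have hE0 : 0 ≤ E := (sum_nonneg fun j _ => he j).trans (hE 0)
  obtain ⟨J, hJ⟩ : ∃ J : ℕ, J = ⌊32 * Lb + 16 * E⌋₊ + 7 := ⟨_, rfl⟩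
  have hJ1 : 32 * Lb + 16 * E + 6 < J := by
    rw [hJ]; push_cast
    linarith [Nat.lt_floor_add_one (32 * Lb + 16 * E)]
  have hJ2 : (J : ℝ) ≤ 32 * Lb + 16 * E + 8 := by
    rw [hJ]; push_cast
    linarith [Nat.floor_le (show 0 ≤ 32 * Lb + 16 * E by linarith)]
  by_contra hno
  push Not at hno
  have hc : ∀ j : ℕ, 0 ≤ 1 + (a ^ j).re ∧ 1 + (a ^ j).re ≤ 2 := fun j => by
    have := abs_le.1 ((abs_re_le_norm (a ^ j)).trans_eq (by rw [norm_pow, ha1, one_pow]))
    constructor <;> linarith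
  set G : Multiset ℂ → ℝ := fun T =>
    ∑ j ∈ Icc 1 J, fejW J j * (1 + (a ^ j).re) * (T.map fun z => z ^ j).sum.re
  have hcons : ∀ (z : ℂ) (T : Multiset ℂ), G (z ::ₘ T) =
      (fejP J z + (fejP J (z * a) + fejP J (z * conj a)) / 2) + G T := fun z T => by
    simp only [G, Multiset.map_cons, Multiset.sum_cons, add_re]
    rw [← smoothed_eq, ← Finset.sum_add_distrib]
    exact Finset.sum_congr rfl fun j _ => by ring
  have hrest : ∀ T : Multiset ℂ, (∀ z ∈ T, ‖z‖ ≤ 1) →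
      -(4 * (T.map fun z => ‖z‖).sum) ≤ G T := fun T hT => by
    induction T using Multiset.induction_on with
    | empty => simp [G]
    | cons z T ih =>
      have hz := hT z (Multiset.mem_cons_self z T)
      have h1 := fejP_ge_neg_norm J hz
      have h2 := fejP_ge_neg_norm J (z := z * a) (by rw [norm_mul, ha1, mul_one]; exact hz)
      have h3 := fejP_ge_neg_norm J (z := z * conj a) (by
        rw [norm_mul, norm_conj, ha1, mul_one]; exact hz)
      rw [norm_mul, ha1, mul_one] at h2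
      rw [norm_mul, norm_conj, ha1, mul_one] at h3
      have h4 := ih fun y hy => hT y (Multiset.mem_cons_of_mem hy)
      rw [hcons, Multiset.map_cons, Multiset.sum_cons]
      linarith
  have hlow : (J : ℝ) / 4 - 3 / 4 - 4 * Lb ≤ G (a ::ₘ S') := by
    have h1 := fejP_ge_neg_half J ha1.le
    have h2 := fejP_ge_neg_half J (z := a * a) (by rw [norm_mul, ha1, one_mul])
    have h3 : fejP J (a * conj a) = J / 2 := by
      rw [mul_conj, normSq_eq_norm_sq, ha1, one_pow, ofReal_one, fejP_one]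
    have h4 := hrest S' fun y hy => hmax y (Multiset.mem_cons_of_mem hy)
    rw [hcons, h3]
    linarith
  have hup : G (a ::ₘ S') ≤ J / 8 + 2 * E := by
    have h1 : G (a ::ₘ S') ≤ ∑ j ∈ Icc 1 J, (fejW J j / 4 + 2 * e j) := Finset.sum_le_sum fun j hj => by
      obtain ⟨hj1, hj2⟩ := mem_Icc.1 hj
      have h := (hno j hj1 ((Nat.cast_le.2 hj2).trans hJ2)).le
      have hw := fejW_nonneg hj2
      refine (mul_le_mul_of_nonneg_left h (mul_nonneg hw (hc j).1)).trans ?_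
      have h0 : 0 ≤ 1 / 8 + e j := by linarith [he j]
      have h2 := mul_le_mul_of_nonneg_left (hc j).2 hw
      have h3 := mul_le_mul_of_nonneg_right h2 h0
      have h4 := mul_le_mul_of_nonneg_right (fejW_le_one J j) (he j)
      linarith
    rw [Finset.sum_add_distrib, ← Finset.mul_sum, ← Finset.sum_div, sum_fejW] at h1
    linarith [hE J]
  linarith

/-- The normalised form. -/
theorem exists_re_powSum_ge_one (S : Multiset ℂ) {a : ℂ} (ha : a ∈ S) (ha1 : ‖a‖ = 1)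
    (hmax : ∀ z ∈ S, ‖z‖ ≤ 1) {Lb : ℝ} (hL : (S.map fun z => ‖z‖).sum ≤ Lb) :
    ∃ j : ℕ, 1 ≤ j ∧ (j : ℝ) ≤ 32 * Lb + 8 ∧ 1 / 8 ≤ (S.map fun z => z ^ j).sum.re := by
  simpa using exists_re_powSum_ge_one_add S ha ha1 hmax hL (e := fun _ => 0) (fun _ => le_rfl) (E := 0)
    (fun J => by simp)

/-- **The power sum theorem.** -/
theorem exists_re_powSum_ge (S : Multiset ℂ) {a : ℂ} (ha : a ∈ S) (ha0 : a ≠ 0)
    (hmax : ∀ z ∈ S, ‖z‖ ≤ ‖a‖) {Lb : ℝ} (hL : (S.map fun z => ‖z‖).sum ≤ Lb * ‖a‖) :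
    ∃ j : ℕ, 1 ≤ j ∧ (j : ℝ) ≤ 32 * Lb + 8 ∧ ‖a‖ ^ j / 8 ≤ (S.map fun z => z ^ j).sum.re := by
  have hr : 0 < ‖a‖ := norm_pos_iff.2 ha0
  have hn : ∀ z : ℂ, ‖z / (‖a‖ : ℂ)‖ = ‖z‖ / ‖a‖ := fun z => by
    rw [norm_div, norm_real, norm_norm]
  obtain ⟨j, hj1, hj2, hj⟩ := exists_re_powSum_ge_one (S.map fun z => z / (‖a‖ : ℂ))
    (a := a / (‖a‖ : ℂ)) (Multiset.mem_map_of_mem _ ha) (by rw [hn, div_self hr.ne'])
    (fun z hz => by
      obtain ⟨y, hy, rfl⟩ := Multiset.mem_map.1 hz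
      rw [hn, div_le_one hr]
      exact hmax y hy) (Lb := Lb) (by
      rw [Multiset.map_map]
      simp only [Function.comp_def, hn]
      simp only [div_eq_mul_inv, Multiset.sum_map_mul_right]
      rwa [mul_inv_le_iff₀ hr])
  refine ⟨j, hj1, hj2, ?_⟩
  have e : ((S.map fun z => z / (‖a‖ : ℂ)).map fun z => z ^ j).sum.re =
      (S.map fun z => z ^ j).sum.re / ‖a‖ ^ j := by
    rw [Multiset.map_map]
    simp only [Function.comp_def, div_pow, ← ofReal_pow]
    simp only [div_eq_mul_inv, Multiset.sum_map_mul_right, ← ofReal_inv, re_mul_ofReal]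
  rw [e, le_div_iff₀ (by positivity)] at hj
  linarith

end FA.DeuringHeilbronn

end
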