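import Fermat.Agent.DeuringHeilbronn.Growth
import Fermat.Agent.DeuringHeilbronn.PowerSum
import Fermat.Agent.DeuringHeilbronn.Disc
import Fermat.Agent.DedekindPrimeIdeals.Dirichlet
import Fermat.Agent.Root.SummaryStarkLowerBound
import Mathlib.NumberTheory.LSeries.Deriv

/-!
# The phenomenon of Deuring and Heilbronn, uniformly in the field

The odd derivatives of `-ζ'/ζ` at `2` and at `2 + it` have nonnegative real sum. So the power sums
over all zeros but `β`, seen from these two points, are at most `4 j (1 - β)`, while some power sum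
with `j = O (H(t))` is at least the `2 j`-th power of the nearest zero. Hence
`exp (- A H(t) (1 - σ)) ≤ A H(t) (1 - β)` for every zero `σ + i t ≠ β` with `σ ≥ 0`.
-/

set_option autoImplicit false
set_option linter.style.haveILetI false

noncomputable section

universe u

open NumberField Module Complex Filter
open FA.DedekindZF (height one_le_height cleared_ne_zero)
open FA.DedekindPIT (mangoldtK mangoldtK_nonneg LSeries_mangoldtK)
open scoped Real Topology Nat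

namespace FA.DeuringHeilbronn

theorem norm_pow_sub_pow_le {a b : ℂ} (ha : ‖a‖ ≤ 1) (hb : ‖b‖ ≤ 1) :
    ∀ m : ℕ, ‖a ^ m - b ^ m‖ ≤ m * ‖a - b‖ := fun m => by
  induction m with
  | zero => simp
  | succ k ih =>
    rw [show a ^ (k + 1) - b ^ (k + 1) = a * (a ^ k - b ^ k) + (a - b) * b ^ k by ring,
      Nat.cast_succ, add_one_mul]
    refine (norm_add_le _ _).trans (add_le_add ?_ ?_)
    · rw [norm_mul]
      exact (mul_le_of_le_one_left (norm_nonneg _) ha).trans ih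
    · rw [norm_mul, norm_pow]
      exact mul_le_of_le_one_right (norm_nonneg _) (pow_le_one₀ (norm_nonneg _) hb)

theorem norm_inv_pow_sub_le {a b : ℂ} (ha : 1 ≤ ‖a‖) (hb : 1 ≤ ‖b‖) (m : ℕ) :
    ‖(a ^ m)⁻¹ - (b ^ m)⁻¹‖ ≤ m * ‖a - b‖ := by
  have ha0 : a ≠ 0 := norm_pos_iff.1 (by linarith)
  have hb0 : b ≠ 0 := norm_pos_iff.1 (by linarith)
  rw [← inv_pow, ← inv_pow]
  refine (norm_pow_sub_pow_le (by rw [norm_inv]; exact inv_le_one_of_one_le₀ ha)
    (by rw [norm_inv]; exact inv_le_one_of_one_le₀ hb) m).trans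
    (mul_le_mul_of_nonneg_left ?_ (Nat.cast_nonneg _))
  rw [inv_sub_inv ha0 hb0, norm_div, norm_sub_rev, norm_mul]
  exact div_le_self (norm_nonneg _) (one_le_mul_of_one_le_of_one_le ha hb)

/-- `|re L(c)| ≤ L(2)` for nonnegative coefficients and `re c = 2`. -/
theorem re_LSeries_add_nonneg {f : ℕ → ℂ} (hf : ∀ n, ∃ r : ℝ, 0 ≤ r ∧ f n = r)
    (hs : LSeriesSummable f 2) {c : ℂ} (hc : c.re = 2) :
    0 ≤ (LSeries f c).re + (LSeries f 2).re := by
  have hterm : ∀ n, (LSeries.term f 2 n).re = ‖LSeries.term f c n‖ := fun n => by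
    rcases eq_or_ne n 0 with rfl | hn
    · simp
    obtain ⟨r, hr, he⟩ := hf n
    rw [LSeries.norm_term_eq, if_neg hn, LSeries.term_of_ne_zero hn, he, norm_real,
      Real.norm_of_nonneg hr, hc, show ((n : ℂ) ^ (2 : ℂ)) = (((n : ℝ) ^ 2 : ℝ) : ℂ) by simp,
      div_ofReal_re, ofReal_re, Real.rpow_two]
  have hnorm : Summable fun n => ‖LSeries.term f c n‖ := by
    simp only [← hterm]
    exact (Complex.hasSum_re hs.hasSum).summable
  have h1 : ‖LSeries f c‖ ≤ (LSeries f 2).re := by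
    rw [LSeries, LSeries, Complex.re_tsum hs]
    simp only [hterm]
    exact norm_tsum_le_tsum_norm hnorm
  have := abs_le.1 ((abs_re_le_norm (LSeries f c)).trans h1)
  linarith

section

variable (K : Type u) [Field K] [NumberField K]

/-- `mangoldtK`, with values in `ℂ`. -/
def mangC (n : ℕ) : ℂ := (mangoldtK K n : ℂ)

theorem iterate_logMul_mangC_nonneg (m n : ℕ) :
    ∃ r : ℝ, 0 ≤ r ∧ LSeries.logMul^[m] (mangC K) n = r := by
  induction m with
  | zero => exact ⟨_, mangoldtK_nonneg K n, rfl⟩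
  | succ m ih =>
    obtain ⟨r, hr, he⟩ := ih
    refine ⟨Real.log n * r, mul_nonneg (Real.log_natCast_nonneg n) hr, ?_⟩
    rw [Function.iterate_succ_apply']
    show Complex.log n * _ = _
    rw [he, ← Complex.natCast_log, ofReal_mul]

variable {K} {E : ℂ → ℂ} (hE : Differentiable ℂ E)
  (hEL : ∀ s : ℂ, 1 < s.re → E s = (s - 1) * dedekindZeta K s)

include hE hEL

theorem abscissa_mangC_lt {s : ℂ} (hs : 1 < s.re) :
    LSeries.abscissaOfAbsConv (mangC K) < s.re := by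
  refine lt_of_le_of_lt (LSeries.abscissaOfAbsConv_le_of_forall_lt_LSeriesSummable (x := 1)
    fun y hy => (LSeries_mangoldtK hE hEL (s := (y : ℂ)) (by simpa using hy)).1) ?_
  exact_mod_cast hs

/-- The odd derivatives of the logarithmic derivative of `w ↦ E (c + w)`. -/
theorem iteratedDeriv_shift (k : ℕ) {c : ℂ} (hc : 1 < c.re) :
    iteratedDeriv k (logDeriv fun w => E (c + w)) 0 =
      -((-1) ^ k * LSeries (LSeries.logMul^[k] (mangC K)) c) +
        (-1) ^ k * k ! * ((c - 1) ^ (k + 1))⁻¹ := by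
  have e1 : (logDeriv fun w => E (c + w)) = fun w => logDeriv E (c + w) := funext fun w => by
    rw [logDeriv_apply, logDeriv_apply, deriv_comp_const_add]
  rw [e1, iteratedDeriv_comp_const_add k (logDeriv E) c]
  simp only [add_zero]
  have hev : logDeriv E =ᶠ[𝓝 c] (-(LSeries (mangC K)) + fun s : ℂ => (s - 1)⁻¹) := by
    filter_upwards [(isOpen_lt continuous_const Complex.continuous_re).mem_nhds hc] with s hs
    rw [Pi.add_apply, Pi.neg_apply, logDeriv_apply,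
      show LSeries (mangC K) s = _ from (LSeries_mangoldtK hE hEL hs).2]
    ring
  have hA : AnalyticAt ℂ (LSeries (mangC K)) c :=
    LSeries_analyticOnNhd (mangC K) c (abscissa_mangC_lt hE hEL hc)
  have hc1 : c - 1 ≠ 0 := sub_ne_zero.2 fun h => by simp [h] at hc
  have hB : AnalyticAt ℂ (fun s : ℂ => (s - 1)⁻¹) c := (analyticAt_id.sub analyticAt_const).inv hc1
  rw [hev.iteratedDeriv_eq k, iteratedDeriv_add hA.neg.contDiffAt hB.contDiffAt,
    iteratedDeriv_neg, LSeries_iteratedDeriv k (abscissa_mangC_lt hE hEL hc),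
    iteratedDeriv_comp_sub_const k (fun z : ℂ => z⁻¹) 1, iteratedDeriv_eq_iterate]
  congr 1
  show deriv^[k] Inv.inv (c - 1) = _
  rw [iter_deriv_inv, show (-1 - k : ℤ) = -((k + 1 : ℕ) : ℤ) by push_cast; ring, zpow_neg,
    zpow_natCast]

theorem re_lt_one_of_zero {z : ℂ} (hz : E z = 0) : z.re < 1 :=
  not_le.1 fun h => cleared_ne_zero hE hEL h hz

theorem grows_shift (t : ℝ) :
    Grows (fun w => E (2 + t * I + w)) ((globA + 11) * height K t) := fun w => by
  show ‖E (2 + t * I + w)‖ ≤ _ * ‖E (2 + t * I + 0)‖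
  rw [add_zero]
  exact norm_cleared_le_center hE hEL t w

/-- What one centre gives: the power sums are bounded by the pole and the series. -/
theorem exists_powSums_le (t : ℝ) (J r₀ : ℝ) (hJ : 0 ≤ J) {ε : ℝ} (hε : 0 < ε) :
    ∃ S : Multiset ℂ, (∀ w ∈ S, 1 < ‖w‖) ∧
      (∀ w : ℂ, ‖w‖ ≤ r₀ → E (2 + t * I + w) = 0 → w ∈ S) ∧
      (S.map fun w => (‖w‖ ^ 2)⁻¹).sum ≤ 128 * ((globA + 11) * height K t) ∧
      ∀ j : ℕ, 1 ≤ j → (j : ℝ) ≤ J →
        (S.map fun w => ((w ^ 2)⁻¹) ^ j).sum.re ≤ (((1 + t * I : ℂ) ^ (2 * j))⁻¹).re -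
          (LSeries (LSeries.logMul^[2 * j - 1] (mangC K)) (2 + t * I)).re / (2 * j - 1)! + ε := by
  have hc : (2 + (t : ℂ) * I).re = 2 := by simp
  have hd : Differentiable ℂ fun w => E (2 + t * I + w) := hE.comp (differentiable_id.const_add _)
  have h0 : E (2 + t * I + 0) ≠ 0 := by
    rw [add_zero]
    exact cleared_ne_zero hE hEL (by linarith)
  have hB : 0 < (globA + 11) * height K t :=
    mul_pos (by linarith [globA_nonneg]) (zero_lt_one.trans_le (one_le_height K t))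
  have hzero : ∀ w : ℂ, E (2 + t * I + w) = 0 → 1 < ‖w‖ := fun w hw => by
    have h1 := re_lt_one_of_zero hE hEL hw
    rw [add_re, hc] at h1
    have := abs_le.1 (Complex.abs_re_le_norm w)
    linarith
  obtain ⟨S, hS, hmem, hsum, hpow⟩ :=
    exists_zero_powSums hd h0 hB (grows_shift hE hEL t) hzero J r₀ hJ hε
  refine ⟨S, fun w hw => hzero w (hS w hw), hmem, hsum, fun j hj1 hj2 => ?_⟩
  have h := hpow j hj1 hj2
  obtain ⟨k, hk⟩ : ∃ k, k = 2 * j - 1 := ⟨_, rfl⟩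
  have hk1 : k + 1 = 2 * j := by omega
  rw [← hk] at h ⊢
  rw [iteratedDeriv_shift hE hEL k (by linarith), Odd.neg_one_pow ⟨j - 1, by omega⟩, hk1,
    show (2 : ℂ) + t * I - 1 = 1 + t * I by ring] at h
  have hf0 : (k ! : ℂ) ≠ 0 := Nat.cast_ne_zero.2 (Nat.factorial_ne_zero k)
  obtain ⟨L, hL⟩ : ∃ L, L = LSeries (LSeries.logMul^[k] (mangC K)) (2 + t * I) := ⟨_, rfl⟩
  rw [← hL] at h ⊢
  rw [show (-(-1 * L) + -1 * (k ! : ℂ) * ((1 + t * I : ℂ) ^ (2 * j))⁻¹) / (k ! : ℂ) =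
    L / (k ! : ℂ) - ((1 + t * I : ℂ) ^ (2 * j))⁻¹ by field_simp; ring] at h
  have h2 := (le_abs_self _).trans ((abs_re_le_norm _).trans h)
  rw [add_re, sub_re, div_natCast_re] at h2
  linarith

/-- The two centres together. -/
theorem repulsion_aux {β : ℝ} (hβ : E (β : ℂ) = 0) (hβ0 : 0 < β) {ρ : ℂ} (hρ : E ρ = 0)
    (hne : ρ ≠ (β : ℂ)) (hσ : 0 ≤ ρ.re) :
    Real.exp (-(2 * (32768 * (globA + 11) + 8) * height K ρ.im * (1 - ρ.re))) ≤
      32 * (32768 * (globA + 11) + 8) * height K ρ.im * (1 - β) := by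
  have hβ1 : β < 1 := by simpa using re_lt_one_of_zero hE hEL hβ
  have hσ1 : ρ.re < 1 := re_lt_one_of_zero hE hEL hρ
  obtain ⟨t, ht⟩ : ∃ t, t = ρ.im := ⟨_, rfl⟩
  obtain ⟨σ, hσdef⟩ : ∃ σ, σ = ρ.re := ⟨_, rfl⟩
  obtain ⟨H, hH⟩ : ∃ H, H = height K t := ⟨_, rfl⟩
  obtain ⟨C, hC⟩ : ∃ C, C = 32768 * (globA + 11) + 8 := ⟨_, rfl⟩
  rw [← ht, ← hσdef, ← hH, ← hC]
  rw [← hσdef] at hσ hσ1
  have hH1 : 1 ≤ H := hH ▸ one_le_height K t
  have hg := globA_nonneg
  have hC0 : 0 ≤ C := by rw [hC]; linarith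
  refine le_of_forall_pos_le_add fun ε hε => ?_
  have hJ : 0 ≤ C * H := by positivity
  obtain ⟨S₁, hS₁, hmem₁, hsum₁, hpow₁⟩ :=
    exists_powSums_le hE hEL t (C * H) (2 + |t|) hJ (show 0 < ε / 16 by linarith)
  obtain ⟨S₀, hS₀, hmem₀, hsum₀, hpow₀⟩ :=
    exists_powSums_le hE hEL 0 (C * H) (2 + |t|) hJ (show 0 < ε / 16 by linarith)
  simp only [ofReal_zero, zero_mul, add_zero] at hmem₀ hpow₀
  obtain ⟨b₁, hb₁⟩ : ∃ b : ℂ, b = ((β - 2 : ℝ) : ℂ) - t * I := ⟨_, rfl⟩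
  obtain ⟨b₀, hb₀⟩ : ∃ b : ℂ, b = ((β - 2 : ℝ) : ℂ) := ⟨_, rfl⟩
  obtain ⟨w₁, hw₁⟩ : ∃ w : ℂ, w = ((σ - 2 : ℝ) : ℂ) := ⟨_, rfl⟩
  have hcw : 2 + (t : ℂ) * I + w₁ = ρ := by
    rw [hw₁, hσdef, ht]
    apply Complex.ext <;> simp
  have hb₁S : b₁ ∈ S₁ := by
    refine hmem₁ b₁ ?_ ?_
    · rw [hb₁]
      refine (norm_sub_le _ _).trans ?_
      rw [norm_real, Real.norm_eq_abs, norm_mul, norm_real, Complex.norm_I, mul_one,
        Real.norm_eq_abs, abs_of_neg (show β - 2 < 0 by linarith)]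
      linarith
    · rw [hb₁, show 2 + (t : ℂ) * I + (((β - 2 : ℝ) : ℂ) - t * I) = (β : ℂ) by push_cast; ring]
      exact hβ
  have hb₀S : b₀ ∈ S₀ := by
    refine hmem₀ b₀ ?_ ?_
    · rw [hb₀, norm_real, Real.norm_eq_abs, abs_of_neg (show β - 2 < 0 by linarith)]
      linarith [abs_nonneg t]
    · rw [hb₀, show (2 : ℂ) + ((β - 2 : ℝ) : ℂ) = (β : ℂ) by push_cast; ring]
      exact hβ
  have hw₁S : w₁ ∈ S₁.erase b₁ := by
    refine (Multiset.mem_erase_of_ne fun h => hne ?_).2 (hmem₁ w₁ ?_ (hcw.symm ▸ hρ))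
    · rw [← hcw, h, hb₁]; push_cast; ring
    · rw [hw₁, norm_real, Real.norm_eq_abs, abs_of_neg (show σ - 2 < 0 by linarith)]
      linarith [abs_nonneg t]
  obtain ⟨Z, hZ⟩ : ∃ Z : Multiset ℂ, Z = (S₁.erase b₁ + S₀.erase b₀).map fun w => (w ^ 2)⁻¹ :=
    ⟨_, rfl⟩
  have hz₁ : (w₁ ^ 2)⁻¹ ∈ Z :=
    hZ ▸ Multiset.mem_map_of_mem _ (Multiset.mem_add.2 (Or.inl hw₁S))
  obtain ⟨a, ha, hmax⟩ := Z.toFinset.exists_max_image (fun z => ‖z‖)
    ⟨_, Multiset.mem_toFinset.2 hz₁⟩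
  rw [Multiset.mem_toFinset] at ha
  have hz₁n : ((2 - σ) ^ 2)⁻¹ ≤ ‖a‖ := by
    refine le_trans (le_of_eq ?_) (hmax _ (Multiset.mem_toFinset.2 hz₁))
    rw [norm_inv, norm_pow, hw₁, norm_real, Real.norm_eq_abs,
      abs_of_neg (show σ - 2 < 0 by linarith), neg_sub]
  have h4 : (1 : ℝ) / 4 ≤ ((2 - σ) ^ 2)⁻¹ := by
    rw [one_div]
    exact inv_anti₀ (by nlinarith) (by nlinarith)
  have ha0 : a ≠ 0 := norm_pos_iff.1 (by linarith)
  have hsum : (Z.map fun z => ‖z‖).sum ≤ 1024 * (globA + 11) * H * ‖a‖ := by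
    rw [hZ, Multiset.map_map]
    simp only [Function.comp_def, norm_inv, norm_pow, Multiset.map_add, Multiset.sum_add]
    have hh : height K 0 ≤ H := by
      rw [hH, FA.DedekindZF.height, FA.DedekindZF.height, abs_zero]
      gcongr
      linarith [abs_nonneg t]
    have e1 := Multiset.sum_map_erase (f := fun w => (‖w‖ ^ 2)⁻¹) hb₁S
    have e0 := Multiset.sum_map_erase (f := fun w => (‖w‖ ^ 2)⁻¹) hb₀S
    have p1 : (0 : ℝ) ≤ (‖b₁‖ ^ 2)⁻¹ := by positivity
    have p0 : (0 : ℝ) ≤ (‖b₀‖ ^ 2)⁻¹ := by positivity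
    rw [← hH] at hsum₁
    have k0 := mul_le_mul_of_nonneg_left hh (show 0 ≤ globA + 11 by linarith)
    have k1 := mul_le_mul_of_nonneg_left (h4.trans hz₁n)
      (show 0 ≤ (globA + 11) * H by positivity)
    linarith
  obtain ⟨j, hj1, hj2, hj⟩ := exists_re_powSum_ge Z ha ha0
    (fun z hz => hmax z (Multiset.mem_toFinset.2 hz)) hsum
  have hjC : (j : ℝ) ≤ C * H := by rw [hC]; linarith
  -- the lower bound
  have hlow : Real.exp (-(2 * C * H * (1 - σ))) ≤ ‖a‖ ^ j := by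
    refine le_trans ?_ (pow_le_pow_left₀ (by positivity) hz₁n j)
    rw [← inv_pow, ← pow_mul, inv_pow, Real.exp_neg]
    refine inv_anti₀ (pow_pos (by linarith) _) ?_
    refine (pow_le_pow_left₀ (by linarith) (show 2 - σ ≤ Real.exp (1 - σ) by
      linarith [Real.add_one_le_exp (1 - σ)]) _).trans ?_
    rw [← Real.exp_nat_mul]
    refine Real.exp_le_exp.2 (mul_le_mul_of_nonneg_right ?_ (by linarith))
    push_cast
    linarith
  -- the upper bound
  have hup : (Z.map fun z => z ^ j).sum.re ≤ 4 * (C * H) * (1 - β) + ε / 8 := by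
    rw [hZ, Multiset.map_map]
    simp only [Function.comp_def, Multiset.map_add, Multiset.sum_add, add_re]
    have e1 := congrArg Complex.re (Multiset.sum_map_erase (f := fun w => ((w ^ 2)⁻¹) ^ j) hb₁S)
    have e0 := congrArg Complex.re (Multiset.sum_map_erase (f := fun w => ((w ^ 2)⁻¹) ^ j) hb₀S)
    rw [add_re] at e1 e0
    have u1 := hpow₁ j hj1 hjC
    have u0 := hpow₀ j hj1 hjC
    have hpos := re_LSeries_add_nonneg (iterate_logMul_mangC_nonneg K (2 * j - 1))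
      (LSeriesSummable_of_abscissaOfAbsConv_lt_re (by
        rw [LSeries.absicssaOfAbsConv_logPowMul]
        exact abscissa_mangC_lt hE hEL (by norm_num)))
      (show (2 + (t : ℂ) * I).re = 2 by simp)
    have hdiff : ∀ x : ℝ, (((1 + x * I : ℂ) ^ (2 * j))⁻¹).re -
        (((((β - 2 : ℝ) : ℂ) - x * I) ^ 2)⁻¹ ^ j).re ≤ 2 * j * (1 - β) := fun x => by
      rw [inv_pow, ← pow_mul, ← Even.neg_pow (even_two_mul j) (((β - 2 : ℝ) : ℂ) - x * I),
        ← sub_re]
      refine (le_abs_self _).trans ((abs_re_le_norm _).trans ((norm_inv_pow_sub_le ?_ ?_ _).trans ?_))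
      · refine le_trans ?_ (re_le_norm _); simp
      · refine le_trans ?_ (re_le_norm _); simp; linarith
      · rw [show (1 : ℂ) + x * I - -(((β - 2 : ℝ) : ℂ) - x * I) = ((β - 1 : ℝ) : ℂ) by push_cast; ring,
          norm_real, Real.norm_eq_abs, abs_of_neg (show β - 1 < 0 by linarith)]
        push_cast
        linarith
    have d1 := hdiff t
    have d0 := hdiff 0
    rw [← hb₁] at d1
    simp only [ofReal_zero, zero_mul, add_zero, sub_zero] at d0
    rw [← hb₀] at d0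
    have hk : (0 : ℝ) ≤ ((LSeries (LSeries.logMul^[2 * j - 1] (mangC K)) (2 + t * I)).re +
        (LSeries (LSeries.logMul^[2 * j - 1] (mangC K)) 2).re) / (2 * j - 1)! := by positivity
    rw [add_div] at hk
    have hjδ := mul_le_mul_of_nonneg_right hjC (show 0 ≤ 1 - β by linarith)
    linarith
  linarith

end

/-- **The phenomenon of Deuring and Heilbronn.** -/
theorem exists_repulsion : ∃ A : ℝ, 1 ≤ A ∧ ∀ (K : Type u) [Field K] [NumberField K] (E : ℂ → ℂ),
    Differentiable ℂ E → (∀ s : ℂ, 1 < s.re → E s = (s - 1) * dedekindZeta K s) →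
    ∀ β : ℝ, 0 < β → E (β : ℂ) = 0 → ∀ ρ : ℂ, E ρ = 0 → ρ ≠ (β : ℂ) → 0 ≤ ρ.re →
      Real.exp (-(A * height K ρ.im * (1 - ρ.re))) ≤ A * height K ρ.im * (1 - β) := by
  have hg := globA_nonneg
  refine ⟨32 * (32768 * (globA + 11) + 8), by linarith,
    fun K _ _ E hE hEL β hβ0 hβ ρ hρ hne hσ => ?_⟩
  refine le_trans (Real.exp_le_exp.2 (neg_le_neg ?_)) (repulsion_aux hE hEL hβ hβ0 hρ hne hσ)
  have h1 : 0 ≤ 1 - ρ.re := by linarith [re_lt_one_of_zero hE hEL hρ]
  have h2 := zero_le_one.trans (one_le_height K ρ.im)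
  gcongr
  linarith

/-- **No real zero is too near `1`, for every field and with no exception.** -/
theorem exists_exp_neg_height_le : ∃ A : ℝ, 1 ≤ A ∧ ∀ (K : Type u) [Field K] [NumberField K]
    (E : ℂ → ℂ), Differentiable ℂ E →
    (∀ s : ℂ, 1 < s.re → E s = (s - 1) * dedekindZeta K s) →
    ∀ β : ℝ, E (β : ℂ) = 0 → Real.exp (-(A * height K 0)) ≤ 1 - β := by
  obtain ⟨A, hA, h⟩ := exists_repulsion.{u}
  refine ⟨2 * A, by linarith, fun K _ _ E hE hEL β hβ => ?_⟩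
  have hβ1 : β < 1 := by simpa using re_lt_one_of_zero hE hEL hβ
  have hH := one_le_height K 0
  have hAH : 1 ≤ A * height K 0 := one_le_mul_of_one_le_of_one_le hA hH
  rcases le_or_gt β (1 / 2) with hsmall | hbig
  · refine le_trans ?_ (show (1 : ℝ) / 2 ≤ 1 - β by linarith)
    rw [Real.exp_neg, one_div]
    refine inv_anti₀ two_pos ?_
    linarith [Real.add_one_le_exp (2 * A * height K 0)]
  have hsre : 0 < ((1 : ℂ) - β).re := by simpa using hβ1
  have hx : FA.HeckeBS.xiFun K (β : ℂ) = 0 :=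
    (FA.Summary.stark_xiFun_eq_zero_iff K hE hEL (s := (β : ℂ)) (by simpa using (show 0 < β by linarith))).1.2 hβ
  have h0 : E (1 - β) = 0 := by
    refine (FA.Summary.stark_xiFun_eq_zero_iff K hE hEL hsre).1.1 ?_
    rwa [FA.HeckeBS.xiFun_one_sub]
  have hne : (1 : ℂ) - β ≠ β := fun he => by
    have := congrArg Complex.re he
    simp at this
    linarith
  have h1 := h K E hE hEL β (by linarith) hβ _ h0 hne hsre.le
  rw [show ((1 : ℂ) - β).im = 0 by simp, show ((1 : ℂ) - β).re = 1 - β by simp, sub_sub_cancel] at h1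
  obtain ⟨P, hP⟩ : ∃ P, P = A * height K 0 := ⟨_, rfl⟩
  rw [← hP] at h1 hAH
  rw [mul_assoc, ← hP]
  have h2 : Real.exp (-P) ≤ P * (1 - β) :=
    le_trans (Real.exp_le_exp.2 (neg_le_neg (mul_le_of_le_one_right (by linarith) hβ1.le))) h1
  refine le_of_mul_le_mul_left ?_ (show 0 < P by linarith)
  refine le_trans ?_ h2
  rw [show -(2 * P) = -P + -P by ring, Real.exp_add, ← mul_assoc]
  refine mul_le_of_le_one_left (Real.exp_pos _).le ?_
  rw [Real.exp_neg, ← div_eq_mul_inv, div_le_one (Real.exp_pos _)]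
  linarith [Real.add_one_le_exp P]

end FA.DeuringHeilbronn

end
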